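import Mathlib
import Fermat.Agent.LT.T6.H438.HasseQ3

/-!
# Row LT, tower T6, leaf T6.00q.8 `AlgCC438` (helper793, OFF-MAIN)

Pure field theory: for `M/L` of degree `2`, `r ∈ M` with `r² = -3` and `√-3 ∉ L`:
`N_{M/L}(u + v r) = u² + 3 v²`; hence `c (e² + 3 d f²) = a² + 3 b²` gives
`c = N_{M/L}((a + b r)/(e + f δ r))`.

VERBATIM against `Fermat/Agent/LT/T6/H438/HasseQ3.lean` (helper438@9c79cc886, sha256 7b061f61).
-/

set_option autoImplicit false

noncomputable section

namespace Fermat.Agent.LT.T6.H793

open Fermat.Agent.LT.T6.H438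

/-- `1, r` are linearly independent over `L` when `r² = -3` and `-3` is not a square in `L`. -/
theorem linearIndependent_one_root793 {L M : Type} [Field L] [Field M] [Algebra L M]
    (r : M) (hr : r ^ 2 = -3) (hnot : ∀ s : L, s ^ 2 ≠ -3) :
    LinearIndependent L ![(1 : M), r] := by
  rw [LinearIndependent.pair_iff]
  intro s t hst
  have hinj : Function.Injective (algebraMap L M) := (algebraMap L M).injective
  by_cases ht : t = 0
  · subst ht
    refine ⟨?_, rfl⟩
    have h1 : algebraMap L M s = 0 := by
      simpa [Algebra.smul_def] using hst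
    exact (map_eq_zero (algebraMap L M)).1 h1
  · exfalso
    have h1 : algebraMap L M s + algebraMap L M t * r = 0 := by
      simpa [Algebra.smul_def] using hst
    have ht' : algebraMap L M t ≠ 0 := fun h => ht ((map_eq_zero (algebraMap L M)).1 h)
    have h2 : r = algebraMap L M (-(s / t)) := by
      have h3 : algebraMap L M t * r = -algebraMap L M s := by
        linear_combination h1
      have h4 : r = -algebraMap L M s / algebraMap L M t := by
        field_simp
        linear_combination h3
      rw [h4, map_neg, map_div₀]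
      ring
    apply hnot (-(s / t))
    apply hinj
    rw [map_pow, ← h2, hr, map_neg, map_ofNat]

/-- The norm form of `M = L(√-3)` over `L`. -/
theorem norm_add_mul_root793 {L M : Type} [Field L] [Field M] [Algebra L M]
    (hdeg : Module.finrank L M = 2) (r : M) (hr : r ^ 2 = -3)
    (hnot : ∀ s : L, s ^ 2 ≠ -3) (u v : L) :
    Algebra.norm L (algebraMap L M u + algebraMap L M v * r) = u ^ 2 + 3 * v ^ 2 := by
  have hli := linearIndependent_one_root793 (L := L) r hr hnot
  have hcard : Fintype.card (Fin 2) = Module.finrank L M := by simp [hdeg]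
  set b : Module.Basis (Fin 2) L M := basisOfLinearIndependentOfCardEqFinrank hli hcard with hb
  have hb0 : b 0 = 1 := by simp [hb]
  have hb1 : b 1 = r := by simp [hb]
  have hr2 : r * r = -3 := by rw [← hr]; ring
  -- the two columns
  have hc0 : (algebraMap L M u + algebraMap L M v * r) * b 0 = u • b 0 + v • b 1 := by
    rw [hb0, hb1, Algebra.smul_def, Algebra.smul_def]
    ring
  have hc1 : (algebraMap L M u + algebraMap L M v * r) * b 1 = (-3 * v) • b 0 + u • b 1 := by
    rw [hb0, hb1, Algebra.smul_def, Algebra.smul_def, map_mul, map_neg]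
    have h3 : algebraMap L M 3 = 3 := map_ofNat _ 3
    rw [h3]
    linear_combination (algebraMap L M v) * hr2
  rw [Algebra.norm_eq_matrix_det b, Matrix.det_fin_two]
  simp only [Algebra.leftMulMatrix_eq_repr_mul, hc0, hc1, map_add, map_smul,
    Module.Basis.repr_self, Finsupp.add_apply, Finsupp.smul_apply, Finsupp.single_apply]
  simp
  ring

/-- **T6.00q.8 = ALG-C**, verbatim. -/
theorem algCC793 : AlgCC438 := by
  intro L M _ _ _ _ _ hp d δ hdsf hδ c hc ⟨a, b, e, f, hef, hceq⟩
  obtain ⟨r, hr⟩ := hp.root
  have hd0 : d ≠ 0 := fun h => by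
    rw [h] at hdsf
    exact not_squarefree_zero hdsf
  have hδ0 : δ ≠ 0 := by
    intro h
    rw [h] at hδ
    have : (d : L) = 0 := by rw [← hδ]; simp
    exact hd0 (by exact_mod_cast this)
  -- the denominator is not zero
  have hden : e ^ 2 + 3 * (d : ℚ) * f ^ 2 ≠ 0 := by
    intro h0
    by_cases hf : f = 0
    · subst hf
      have : e = 0 := by
        have : e ^ 2 = 0 := by linear_combination h0
        exact pow_eq_zero_iff (two_ne_zero) |>.1 this
      rcases hef with h | h
      · exact h this
      · exact h rfl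
    · apply hp.noRoot (algebraMap ℚ L (e / f) / δ)
      have h1 : (e / f) ^ 2 = -3 * (d : ℚ) := by
        field_simp
        linear_combination h0
      have h2 : (algebraMap ℚ L (e / f)) ^ 2 = -3 * (d : L) := by
        rw [← map_pow, h1]
        simp
      rw [div_pow, h2, hδ]
      have hdL : (d : L) ≠ 0 := by exact_mod_cast hd0
      field_simp
  have hNnum := norm_add_mul_root793 (L := L) (M := M) hp.degM r hr hp.noRoot
    (algebraMap ℚ L a) (algebraMap ℚ L b)
  have hNden := norm_add_mul_root793 (L := L) (M := M) hp.degM r hr hp.noRoot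
    (algebraMap ℚ L e) (algebraMap ℚ L f * δ)
  have hden' : (algebraMap ℚ L e) ^ 2 + 3 * (algebraMap ℚ L f * δ) ^ 2
      = algebraMap ℚ L (e ^ 2 + 3 * (d : ℚ) * f ^ 2) := by
    rw [mul_pow, hδ]
    simp
    ring
  have hnum' : (algebraMap ℚ L a) ^ 2 + 3 * (algebraMap ℚ L b) ^ 2
      = algebraMap ℚ L (a ^ 2 + 3 * b ^ 2) := by
    simp
  have hdenL : algebraMap ℚ L (e ^ 2 + 3 * (d : ℚ) * f ^ 2) ≠ 0 :=
    fun h => hden ((map_eq_zero (algebraMap ℚ L)).1 h)
  have hfin : Module.Finite L M := Module.finite_of_finrank_pos (by rw [hp.degM]; norm_num)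
  set Nm : M := algebraMap L M (algebraMap ℚ L a) + algebraMap L M (algebraMap ℚ L b) * r
    with hNm
  set Dn : M := algebraMap L M (algebraMap ℚ L e) + algebraMap L M (algebraMap ℚ L f * δ) * r
    with hDn
  have hDn0 : Dn ≠ 0 := by
    intro h
    rw [h, Algebra.norm_zero, hden'] at hNden
    exact hdenL hNden.symm
  refine ⟨Nm / Dn, ?_⟩
  have hmul : Algebra.norm L (Nm / Dn) * Algebra.norm L Dn = Algebra.norm L Nm := by
    rw [← map_mul, div_mul_cancel₀ _ hDn0]
  rw [hNnum, hNden, hden', hnum', ← hceq, map_mul] at hmul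
  exact mul_right_cancel₀ hdenL hmul

end Fermat.Agent.LT.T6.H793

end
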